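import Fermat.Agent.S19.Defs

/-!
# Cell A3 (S19) — block ADAPTER: frozen interface  (spec: helper992)

Pipeline of the board (origin/helper15:coord/A3.md, v2):

    GoodRed instance  --LOCAL-->  `DiscDatum`        (helper799's (G1)(G2)(G3) at ONE place `A | ℓ`)
        --ASSEMBLY-->  `LocalCoordDatum`             (pure algebra: residue classes + unramified lifts)
        --DESCENT-->   `OrderDatum`                  (unramified descent + approximation)
        --ORD-->       `HopfModel`  --Glue (+FIN)--> frozen S19.

This file contains DEFINITIONS and the (proved) glue `orderStatement_of_blocks` only.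

* `IsContAction act`      : `act` is an additive action of `Gal(Q̄/Q)` with open stabilisers.
  Continuity is NECESSARY: an `OrderDatum` on a finite `M` forces open stabilisers, and local data at
  one place cannot give it (there are discontinuous characters of `Gal(Q̄/Q)` trivial on inertia).
* `LocalCoordDatum A M act` : the local analogue of `OrderDatum`: FINITELY many functions `M → Q̄`
  with values in the valuation ring `A`, equivariant under the INERTIA group of `A` only, separating,
  with `A`-polynomial addition.  No stability under the decomposition group is required (it is free: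
  close the family under `f ↦ σ ∘ f ∘ act σ⁻¹`, `σ ∈ D`).
* `DiscDatum A J S`       : coordinates on the kernel of reduction `J1 ≤ J` + unramified lifts of the
  points of `S ⊆ J`  (= (G1),(G2),(G3) of origin/helper799:coord/A3-LOCAL-helper799.md §0).
* Blocks: `AssemblyStatement`, `DescentStatement`, `ContStatement`, `DiscStatement`.

Mathematical proofs of the two algebra blocks: origin/helper992:coord/A3-wall.md.
-/

set_option autoImplicit false

noncomputable section

namespace Fermat.Agent.S19.Wall

open Fermat.Agent.S19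

/-- `act` is an action of `Gal(Q̄/Q)` on `M` by additive maps with open stabilisers
(every point is fixed by `Gal(Q̄/K)` for some number field `K`). -/
structure IsContAction {M : Type} [AddCommGroup M] (act : GalQ → M → M) : Prop where
  act_one : ∀ m : M, act 1 m = m
  act_mul : ∀ (σ τ : GalQ) (m : M), act (σ * τ) m = act σ (act τ m)
  act_add : ∀ (σ : GalQ) (a b : M), act σ (a + b) = act σ a + act σ b
  act_cont : ∀ m : M, ∃ K : IntermediateField ℚ Qb, FiniteDimensional ℚ K ∧
    ∀ σ ∈ K.fixingSubgroup, act σ m = m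

/-- **Local coordinate datum at one place** `A` of `Q̄`: finitely many `A`-valued functions on `M`,
equivariant under the inertia group of `A`, separating the points, whose translates
`(s,t) ↦ f (s+t)` are `A`-polynomial in the coordinate functions `(s,t) ↦ h s`, `(s,t) ↦ h t`. -/
structure LocalCoordDatum (A : ValuationSubring Qb) (M : Type) [AddCommGroup M]
    (act : GalQ → M → M) where
  gens : Set (M → Qb)
  finite : gens.Finite
  integral : ∀ f ∈ gens, ∀ m : M, f m ∈ A
  equivariant : ∀ f ∈ gens, ∀ σ ∈ A.inertiaSubgroupIn ℚ, ∀ m : M, f (act σ m) = σ (f m)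
  separates : ∀ m m' : M, (∀ f ∈ gens, f m = f m') → m = m'
  add_mem : ∀ f ∈ gens, (fun p : M × M => f (p.1 + p.2)) ∈
    Algebra.adjoin A (coordFunctions gens)

/-- The two families of coordinate functions on `T × T` attached to `z : J → Fin g → Q̄`
and a finite set `T` of points of `J`. -/
def discCoords {J : Type} {g : ℕ} (z : J → Fin g → Qb) (T : Finset J) :
    Set (T × T → Qb) :=
  {f | ∃ j : Fin g, f = fun p => z (p.1 : J) j} ∪ {f | ∃ j : Fin g, f = fun p => z (p.2 : J) j}

/-- **Disc datum** (= (G1),(G2),(G3) of piece LOCAL) at one place `A` of `Q̄`, for a group `J` with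
Galois action and a set `S ⊆ J` of points (the torsion points):

* (G1) a subgroup `J1` (the kernel of reduction), stable under inertia, with coordinates
  `z : J1 → A^g`, injective and inertia-equivariant  (`z` is a total function on `J`; only its
  values on `J1` matter);
* (G2) for every finite `T ⊆ J1` and every `i`, the function `(c,c') ↦ z_i (c+c')` on `T × T` is an
  `A`-polynomial in the `2g` functions `z_j c`, `z_j c'`;
* (G3) every point of `S` differs from an inertia-invariant point of `J` by an element of `J1`. -/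
structure DiscDatum (A : ValuationSubring Qb) (J : Type) [AddCommGroup J]
    [DistribMulAction GalQ J] (S : Set J) where
  J1 : AddSubgroup J
  J1_stable : ∀ σ ∈ A.inertiaSubgroupIn ℚ, ∀ c ∈ J1, σ • c ∈ J1
  g : ℕ
  z : J → Fin g → Qb
  z_mem : ∀ c ∈ J1, ∀ i : Fin g, z c i ∈ A
  z_inj : ∀ c ∈ J1, ∀ c' ∈ J1, z c = z c' → c = c'
  z_equivariant : ∀ σ ∈ A.inertiaSubgroupIn ℚ, ∀ c ∈ J1, ∀ i : Fin g, z (σ • c) i = σ (z c i)
  z_add : ∀ T : Finset J, (∀ c ∈ T, c ∈ J1) → ∀ i : Fin g,
    (fun p : T × T => z ((p.1 : J) + (p.2 : J)) i) ∈ Algebra.adjoin A (discCoords z T)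
  lift : ∀ P ∈ S, ∃ x : J, (∀ σ ∈ A.inertiaSubgroupIn ℚ, σ • x = x) ∧ P - x ∈ J1

/-- **Block ASSEMBLY** (pure algebra): a disc datum for the image of a finite equivariantly
embedded `M ↪ J` gives a local coordinate datum on `M`. -/
def AssemblyStatement : Prop :=
  ∀ (A : ValuationSubring Qb) (J : Type) [AddCommGroup J] [DistribMulAction GalQ J]
    (M : Type) [AddCommGroup M] [Finite M] (act : GalQ → M → M) (incl : M →+ J),
    Function.Injective incl → (∀ (σ : GalQ) (m : M), incl (act σ m) = σ • incl m) →
    Nonempty (DiscDatum A J (Set.range incl)) → Nonempty (LocalCoordDatum A M act)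

/-- **Block DESCENT** (pure algebra + ramification theory of `Q̄/Q` at one place): a local
coordinate datum at ONE place above `ℓ` for a continuous additive action on a finite `M` gives a
(global) order datum. -/
def DescentStatement : Prop :=
  ∀ (ℓ : ℕ) [Fact ℓ.Prime] (M : Type) [AddCommGroup M] [Finite M] (act : GalQ → M → M),
    IsContAction act → ∀ A : ValuationSubring Qb, A.LiesOverPrime ℓ →
    Nonempty (LocalCoordDatum A M act) → Nonempty (OrderDatum ℓ M act)

/-- **Block ADAPTER** = ASSEMBLY + DESCENT in one statement. -/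
def AdapterStatement : Prop :=
  ∀ (ℓ : ℕ) [Fact ℓ.Prime] (J : Type) [AddCommGroup J] [DistribMulAction GalQ J]
    (M : Type) [AddCommGroup M] [Finite M] (act : GalQ → M → M) (incl : M →+ J),
    Function.Injective incl → (∀ (σ : GalQ) (m : M), incl (act σ m) = σ • incl m) →
    IsContAction act → ∀ A : ValuationSubring Qb, A.LiesOverPrime ℓ →
    Nonempty (DiscDatum A J (Set.range incl)) → Nonempty (OrderDatum ℓ M act)

theorem adapter_of_blocks (hA : AssemblyStatement) (hD : DescentStatement) : AdapterStatement :=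
  fun ℓ _ J _ _ M _ _ act incl hinj heq hact A hAℓ hdisc =>
    hD ℓ M act hact A hAℓ (hA A J M act incl hinj heq hdisc)

/-- **Block CONT**: every torsion point of `J₀(N)` is fixed by `Gal(Q̄/K)` for some number
field `K`. -/
def ContStatement : Prop :=
  ∀ (N : ℕ) [NeZero N] (ℓ : ℕ) [Fact ℓ.Prime] (k : ℕ) (m : Tors N ℓ k),
    ∃ K : IntermediateField ℚ Qb, FiniteDimensional ℚ K ∧
      ∀ σ ∈ K.fixingSubgroup, torsAct N ℓ k σ m = m

/-- **Block LOCAL, disc form**: at some place above `ℓ ∤ N` the `ℓ^k`-torsion of `J₀(N)` carries a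
disc datum. -/
def DiscStatement : Prop :=
  ∀ (N : ℕ) [NeZero N] (ℓ : ℕ) [Fact ℓ.Prime], ¬ ℓ ∣ N → ∀ k : ℕ,
    ∃ A : ValuationSubring Qb, A.LiesOverPrime ℓ ∧
      Nonempty (DiscDatum A (ModularCurve.JZero N)
        (Submodule.torsionBy ℤ (ModularCurve.JZero N) ((ℓ : ℤ) ^ k) : Set (ModularCurve.JZero N)))

/-- **Block LOCAL, coordinate form**: at some place above `ℓ ∤ N` the `ℓ^k`-torsion of `J₀(N)`
carries a local coordinate datum. -/
def LocalStatement : Prop :=
  ∀ (N : ℕ) [NeZero N] (ℓ : ℕ) [Fact ℓ.Prime], ¬ ℓ ∣ N → ∀ k : ℕ,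
    ∃ A : ValuationSubring Qb, A.LiesOverPrime ℓ ∧
      Nonempty (LocalCoordDatum A (Tors N ℓ k) (torsAct N ℓ k))

theorem isContAction_torsAct (hC : ContStatement) (N : ℕ) [NeZero N] (ℓ : ℕ) [Fact ℓ.Prime]
    (k : ℕ) : IsContAction (torsAct N ℓ k) where
  act_one m := Subtype.ext (one_smul GalQ (m : ModularCurve.JZero N))
  act_mul σ τ m := Subtype.ext (mul_smul σ τ (m : ModularCurve.JZero N))
  act_add := torsAct_add N ℓ k
  act_cont := hC N ℓ k

/-- The inclusion of the torsion into `J₀(N)`. -/
def torsIncl (N ℓ k : ℕ) : Tors N ℓ k →+ ModularCurve.JZero N :=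
  (Submodule.torsionBy ℤ (ModularCurve.JZero N) ((ℓ : ℤ) ^ k)).subtype.toAddMonoidHom

theorem torsIncl_injective (N ℓ k : ℕ) : Function.Injective (torsIncl N ℓ k) :=
  Subtype.val_injective

theorem range_torsIncl (N ℓ k : ℕ) :
    Set.range (torsIncl N ℓ k) =
      (Submodule.torsionBy ℤ (ModularCurve.JZero N) ((ℓ : ℤ) ^ k) : Set (ModularCurve.JZero N)) :=
  Subtype.range_coe

theorem localStatement_of_disc (hA : AssemblyStatement) (hF : FinStatement)
    (hD : DiscStatement) : LocalStatement := by
  intro N _ ℓ _ hℓ k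
  obtain ⟨A, hAℓ, ⟨d⟩⟩ := hD N ℓ hℓ k
  haveI : Finite (Tors N ℓ k) := hF N ℓ k
  refine ⟨A, hAℓ, hA A (ModularCurve.JZero N) (Tors N ℓ k) (torsAct N ℓ k) (torsIncl N ℓ k)
    (torsIncl_injective N ℓ k) (fun σ m => rfl) ⟨?_⟩⟩
  rw [range_torsIncl]
  exact d

/-- **Glue**: the ORDER block of `Fermat.Agent.S19.Defs` from DESCENT + CONT + FIN + LOCAL. -/
theorem orderStatement_of_local (hD : DescentStatement) (hC : ContStatement)
    (hF : FinStatement) (hL : LocalStatement) : OrderStatement := by
  intro N _ ℓ _ hℓ k
  obtain ⟨A, hAℓ, hloc⟩ := hL N ℓ hℓ k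
  haveI : Finite (Tors N ℓ k) := hF N ℓ k
  exact hD ℓ (Tors N ℓ k) (torsAct N ℓ k) (isContAction_torsAct hC N ℓ k) A hAℓ hloc

/-- **Glue**: the ORDER block from ASSEMBLY + DESCENT + CONT + FIN + LOCAL (disc form). -/
theorem orderStatement_of_blocks (hA : AssemblyStatement) (hD : DescentStatement)
    (hC : ContStatement) (hF : FinStatement) (hDisc : DiscStatement) : OrderStatement :=
  orderStatement_of_local hD hC hF (localStatement_of_disc hA hF hDisc)

end Fermat.Agent.S19.Wall

end
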